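import Fermat.Agent.S17.AH.Ext

/-!
# S17 / AH 2 : the absolute logarithmic height on tuples of algebraic numbers
-/

set_option autoImplicit false

open IntermediateField

namespace Fermat.Agent.S17.AH

/-- `ℚ̄`. -/
abbrev Qb : Type := AlgebraicClosure ℚ

/-- the number field generated by the coordinates of `x`. -/
noncomputable def coordField {ι : Type*} (x : ι → Qb) : IntermediateField ℚ Qb := adjoin ℚ (Set.range x)

theorem isIntegral_Qb (z : Qb) : IsIntegral ℚ z :=
  ((AlgebraicClosure.isAlgebraic ℚ).isAlgebraic z).isIntegral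

instance coordField_finiteDimensional {ι : Type*} [Finite ι] (x : ι → Qb) :
    FiniteDimensional ℚ (coordField x) :=
  IntermediateField.finiteDimensional_adjoin fun z _ => isIntegral_Qb z

instance coordField_numberField {ι : Type*} [Finite ι] (x : ι → Qb) : NumberField (coordField x) :=
  { to_charZero := inferInstance, to_finiteDimensional := inferInstance }

/-- the tuple `x` with coordinates in its field of definition. -/
noncomputable def coordLift {ι : Type*} (x : ι → Qb) (i : ι) : coordField x :=
  ⟨x i, subset_adjoin ℚ _ ⟨i, rfl⟩⟩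

/-- the absolute logarithmic height of the tuple `x` (projective height; `0` for `x = 0`). -/
noncomputable def absLogHeight {ι : Type*} [Finite ι] (x : ι → Qb) : ℝ :=
  Height.logHeight (coordLift x) / Module.finrank ℚ (coordField x)

variable {ι κ : Type*} [Finite ι] [Finite κ]

/-- the height can be computed in any number field containing the coordinates. -/
theorem absLogHeight_eq (K : IntermediateField ℚ Qb) [NumberField K] (x : ι → K) :
    absLogHeight (fun i => (x i : Qb)) = Height.logHeight x / Module.finrank ℚ K := by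
  set x' : ι → Qb := fun i => (x i : Qb) with hx'
  have hle : coordField x' ≤ K := by
    rw [coordField, adjoin_le_iff]
    rintro _ ⟨i, rfl⟩
    exact (x i).2
  let _ : Algebra (coordField x') K := (inclusion hle).toRingHom.toAlgebra
  have h1 := logHeight_algebraMap (coordField x') K (coordLift x')
  have h2 : (fun i => algebraMap (coordField x') K (coordLift x' i)) = x := by
    funext i
    exact Subtype.ext rfl
  rw [h2] at h1
  have h3 : Module.finrank ℚ (coordField x') * Module.finrank (coordField x') K
      = Module.finrank ℚ K := Module.finrank_mul_finrank ℚ (coordField x') K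
  have h4 : Module.finrank ℚ K ≠ 0 := Module.finrank_pos.ne'
  have h5 : (Module.finrank (coordField x') K : ℝ) ≠ 0 := by
    intro h
    apply h4
    rw [← h3]
    have : Module.finrank (coordField x') K = 0 := by exact_mod_cast h
    rw [this, mul_zero]
  rw [absLogHeight, h1, ← h3]
  push_cast
  rw [mul_comm (Module.finrank ℚ (coordField x') : ℝ), mul_div_mul_left _ _ h5]

/-- finitely many algebraic numbers lie in a number field. -/
theorem exists_numberField (S : Set Qb) (hS : S.Finite) :
    ∃ K : IntermediateField ℚ Qb, FiniteDimensional ℚ K ∧ S ⊆ K := by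
  have : Finite S := hS
  exact ⟨adjoin ℚ S, IntermediateField.finiteDimensional_adjoin fun z _ => isIntegral_Qb z,
    subset_adjoin ℚ S⟩

theorem numberField_of_finiteDimensional (K : IntermediateField ℚ Qb) [FiniteDimensional ℚ K] :
    NumberField K :=
  { to_charZero := inferInstance, to_finiteDimensional := inferInstance }

/-- variant of `absLogHeight_eq` for a tuple of elements of `ℚ̄` lying in `K`. -/
theorem absLogHeight_eq_of_mem (K : IntermediateField ℚ Qb) [NumberField K] (x : ι → Qb)
    (hx : ∀ i, x i ∈ K) :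
    absLogHeight x = Height.logHeight (fun i => (⟨x i, hx i⟩ : K)) / Module.finrank ℚ K :=
  absLogHeight_eq K (fun i => (⟨x i, hx i⟩ : K))

theorem finrank_cast_pos (K : IntermediateField ℚ Qb) [NumberField K] :
    (0 : ℝ) < Module.finrank ℚ K := by
  exact_mod_cast (Module.finrank_pos : 0 < Module.finrank ℚ K)

theorem absLogHeight_nonneg (x : ι → Qb) : 0 ≤ absLogHeight x :=
  div_nonneg (Height.logHeight_nonneg _) (Nat.cast_nonneg _)

theorem absLogHeight_smul (x : ι → Qb) {c : Qb} (hc : c ≠ 0) :
    absLogHeight (fun i => c * x i) = absLogHeight x := by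
  obtain ⟨K, hK, hS⟩ := exists_numberField (Set.range x ∪ {c})
    ((Set.finite_range x).union (Set.finite_singleton c))
  have := numberField_of_finiteDimensional K
  have hx : ∀ i, x i ∈ K := fun i => hS (Or.inl ⟨i, rfl⟩)
  have hcK : c ∈ K := hS (Or.inr rfl)
  rw [absLogHeight_eq_of_mem K x hx,
    absLogHeight_eq_of_mem K (fun i => c * x i) fun i => K.mul_mem hcK (hx i)]
  congr 1
  have hc' : (⟨c, hcK⟩ : K) ≠ 0 := fun h => hc (congrArg Subtype.val h)
  exact Height.logHeight_smul_eq_logHeight (fun i => (⟨x i, hx i⟩ : K)) hc'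

theorem absLogHeight_comp_equiv (e : ι ≃ κ) (x : κ → Qb) :
    absLogHeight (x ∘ e) = absLogHeight x := by
  have h := absLogHeight_eq (coordField x) (coordLift x ∘ e)
  rw [Height.logHeight_comp_equiv] at h
  exact h

/-- a sub-tuple has smaller height. -/
theorem absLogHeight_comp_le (f : ι → κ) (x : κ → Qb) :
    absLogHeight (x ∘ f) ≤ absLogHeight x := by
  have h : absLogHeight (x ∘ f) = _ := absLogHeight_eq (coordField x) (coordLift x ∘ f)
  rw [h]
  exact div_le_div_of_nonneg_right (Height.logHeight_comp_le f _) (Nat.cast_nonneg _)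

/-- Segre : the height of a tensor product is the sum of the heights. -/
theorem absLogHeight_tmul {x : ι → Qb} {y : κ → Qb} (hx : x ≠ 0) (hy : y ≠ 0) :
    absLogHeight (fun p : ι × κ => x p.1 * y p.2) = absLogHeight x + absLogHeight y := by
  obtain ⟨K, hK, hS⟩ := exists_numberField (Set.range x ∪ Set.range y)
    ((Set.finite_range x).union (Set.finite_range y))
  have := numberField_of_finiteDimensional K
  have hxK : ∀ i, x i ∈ K := fun i => hS (Or.inl ⟨i, rfl⟩)
  have hyK : ∀ i, y i ∈ K := fun i => hS (Or.inr ⟨i, rfl⟩)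
  rw [absLogHeight_eq_of_mem K x hxK, absLogHeight_eq_of_mem K y hyK,
    absLogHeight_eq_of_mem K (fun p : ι × κ => x p.1 * y p.2)
      fun p => K.mul_mem (hxK p.1) (hyK p.2), ← add_div]
  congr 1
  have hx' : (fun i => (⟨x i, hxK i⟩ : K)) ≠ 0 := by
    intro h
    exact hx (funext fun i => congrArg Subtype.val (congrFun h i))
  have hy' : (fun i => (⟨y i, hyK i⟩ : K)) ≠ 0 := by
    intro h
    exact hy (funext fun i => congrArg Subtype.val (congrFun h i))
  exact Height.logHeight_fun_mul_eq hx' hy'

/-- Segre for finite families. -/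
theorem absLogHeight_pi_prod {α : Type*} [Fintype α] {J : α → Type*} [∀ a, Finite (J a)]
    (x : ∀ a, J a → Qb) (hx : ∀ a, x a ≠ 0) :
    absLogHeight (fun p : (∀ a, J a) => ∏ a, x a (p a)) = ∑ a, absLogHeight (x a) := by
  obtain ⟨K, hK, hS⟩ := exists_numberField (⋃ a, Set.range (x a))
    (Set.finite_iUnion fun a => Set.finite_range (x a))
  have := numberField_of_finiteDimensional K
  have hxK : ∀ a i, x a i ∈ K := fun a i => hS (Set.mem_iUnion.2 ⟨a, ⟨i, rfl⟩⟩)
  rw [absLogHeight_eq_of_mem K (fun p : (∀ a, J a) => ∏ a, x a (p a))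
      fun p => K.prod_mem fun a _ => hxK a (p a),
    Finset.sum_congr rfl fun a _ => absLogHeight_eq_of_mem K (x a) (hxK a), ← Finset.sum_div]
  congr 1
  have hx' : ∀ a, (fun i => (⟨x a i, hxK a i⟩ : K)) ≠ 0 := by
    intro a h
    exact hx a (funext fun i => congrArg Subtype.val (congrFun h i))
  rw [← Height.logHeight_fun_prod_eq hx']
  congr 1
  funext p
  apply Subtype.ext
  simp

theorem absLogHeight_zero : absLogHeight (0 : ι → Qb) = 0 := by
  have : coordLift (0 : ι → Qb) = 0 := funext fun i => Subtype.ext rfl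
  rw [absLogHeight, this, Height.logHeight_zero, zero_div]

/-- proportional vectors have the same height. -/
theorem absLogHeight_congr_smul {x y : ι → Qb} {c : Qb} (hc : c ≠ 0) (h : ∀ i, y i = c * x i) :
    absLogHeight y = absLogHeight x := by
  have : y = fun i => c * x i := funext h
  rw [this, absLogHeight_smul x hc]

theorem absLogHeight_of_subsingleton [Subsingleton ι] (x : ι → Qb) : absLogHeight x = 0 := by
  rw [absLogHeight, Height.logHeight_eq_zero_of_subsingleton, zero_div]

/-- Galois invariance. -/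
theorem absLogHeight_algEquiv (σ : Qb ≃ₐ[ℚ] Qb) (x : ι → Qb) :
    absLogHeight (fun i => σ (x i)) = absLogHeight x := by
  let K := coordField x
  let e : K ≃ₐ[ℚ] K.map (σ : Qb →ₐ[ℚ] Qb) := K.equivMap (σ : Qb →ₐ[ℚ] Qb)
  have hfd : FiniteDimensional ℚ (K.map (σ : Qb →ₐ[ℚ] Qb)) := e.toLinearEquiv.finiteDimensional
  have := numberField_of_finiteDimensional (K.map (σ : Qb →ₐ[ℚ] Qb))
  have h : absLogHeight (fun i => σ (x i)) = _ :=
    absLogHeight_eq (K.map (σ : Qb →ₐ[ℚ] Qb)) (fun i => e (coordLift x i))
  rw [h, Height.logHeight_eq_log_mulHeight]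
  have h2 := mulHeight_ringEquiv e.toRingEquiv (coordLift x)
  have h3 : (fun i => e.toRingEquiv (coordLift x i)) = fun i => e (coordLift x i) := rfl
  rw [h3] at h2
  rw [h2, ← e.toLinearEquiv.finrank_eq]
  rfl

/-- a linear map increases the height by a bounded amount. -/
theorem exists_absLogHeight_linear_le {ι : Type*} [Fintype ι] (M : κ → ι → Qb) :
    ∃ C : ℝ, ∀ x : ι → Qb, absLogHeight (fun j => ∑ i, M j i * x i) ≤ absLogHeight x + C := by
  refine ⟨Real.log (Nat.card ι) + absLogHeight (fun p : κ × ι => M p.1 p.2), fun x => ?_⟩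
  obtain ⟨K, hK, hS⟩ := exists_numberField (Set.range x ∪ Set.range (fun p : κ × ι => M p.1 p.2))
    ((Set.finite_range x).union (Set.finite_range _))
  have := numberField_of_finiteDimensional K
  have hxK : ∀ i, x i ∈ K := fun i => hS (Or.inl ⟨i, rfl⟩)
  have hMK : ∀ p : κ × ι, M p.1 p.2 ∈ K := fun p => hS (Or.inr ⟨p, rfl⟩)
  rw [absLogHeight_eq_of_mem K x hxK, absLogHeight_eq_of_mem K (fun p : κ × ι => M p.1 p.2) hMK,
    absLogHeight_eq_of_mem K (fun j => ∑ i, M j i * x i)
      fun j => K.sum_mem fun i _ => K.mul_mem (hMK (j, i)) (hxK i)]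
  have hd := finrank_cast_pos K
  have h1 := Height.logHeight_linearMap_apply_le (fun p : κ × ι => (⟨M p.1 p.2, hMK p⟩ : K))
    (fun i => (⟨x i, hxK i⟩ : K))
  rw [NumberField.totalWeight_eq_finrank] at h1
  have h2 : (fun j => (⟨∑ i, M j i * x i,
      K.sum_mem fun i _ => K.mul_mem (hMK (j, i)) (hxK i)⟩ : K)) =
      fun j => ∑ i, (⟨M j i, hMK (j, i)⟩ : K) * (⟨x i, hxK i⟩ : K) := by
    funext j
    apply Subtype.ext
    simp
  rw [h2, div_le_iff₀ hd]
  refine h1.trans (le_of_eq ?_)
  field_simp
  ring

end Fermat.Agent.S17.AH
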