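import Mathlib

/-!
# S17 / AH 1 : behaviour of Mathlib's heights under extension of number fields
-/

set_option autoImplicit false

namespace Fermat.Agent.S17.AH

open NumberField Height

/-- a product over the infinite places with multiplicities is a product over the embeddings. -/
theorem prod_infinitePlace_pow_mult {K : Type*} [Field K] [NumberField K] {M : Type*}
    [CommMonoid M] (f : InfinitePlace K → M) :
    ∏ v : InfinitePlace K, f v ^ v.mult = ∏ φ : K →+* ℂ, f (InfinitePlace.mk φ) := by
  classical
  rw [← Finset.prod_fiberwise Finset.univ (fun φ : K →+* ℂ => InfinitePlace.mk φ)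
    (fun φ => f (InfinitePlace.mk φ))]
  refine Finset.prod_congr rfl fun v _ => ?_
  rw [← InfinitePlace.card_filter_mk_eq v, ← Finset.prod_const]
  refine Finset.prod_congr rfl fun φ hφ => ?_
  rw [(Finset.mem_filter.1 hφ).2]

/-- every complex embedding of `K` has `[L : K]` extensions to `L`. -/
theorem card_filter_comp_algebraMap (K L : Type*) [Field K] [NumberField K] [Field L]
    [NumberField L] [Algebra K L] [DecidableEq (K →+* ℂ)] (ψ : K →+* ℂ) :
    (Finset.univ.filter fun φ : L →+* ℂ => φ.comp (algebraMap K L) = ψ).card =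
      Module.finrank K L := by
  let := ψ.toAlgebra
  have : FiniteDimensional K L := Module.Finite.of_restrictScalars_finite ℚ K L
  rw [← AlgHom.card K L ℂ, ← Fintype.card_subtype]
  refine Fintype.card_congr
    { toFun := fun φ => { φ.1 with commutes' := fun r => RingHom.congr_fun φ.2 r }
      invFun := fun f => ⟨f.toRingHom, by ext r; exact f.commutes r⟩
      left_inv := fun φ => rfl
      right_inv := fun f => rfl }

theorem prod_comp_algebraMap (K L : Type*) [Field K] [NumberField K] [Field L]
    [NumberField L] [Algebra K L] {M : Type*} [CommMonoid M] (G : (K →+* ℂ) → M) :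
    ∏ φ : L →+* ℂ, G (φ.comp (algebraMap K L)) = (∏ ψ : K →+* ℂ, G ψ) ^ Module.finrank K L := by
  classical
  rw [← Finset.prod_fiberwise Finset.univ (fun φ : L →+* ℂ => φ.comp (algebraMap K L))
    (fun φ => G (φ.comp (algebraMap K L))), ← Finset.prod_pow]
  refine Finset.prod_congr rfl fun ψ _ => ?_
  rw [← card_filter_comp_algebraMap K L ψ, ← Finset.prod_const]
  refine Finset.prod_congr rfl fun φ hφ => ?_
  rw [(Finset.mem_filter.1 hφ).2]

theorem coe_algebraMap_ringOfIntegers (K L : Type*) [Field K] [Field L]
    [Algebra K L] (a : 𝓞 K) :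
    ((algebraMap (𝓞 K) (𝓞 L) a : 𝓞 L) : L) = algebraMap K L (a : K) := rfl

/-- the extension formula for integral tuples -/
theorem mulHeight_algebraMap_of_integral (K L : Type*) [Field K] [NumberField K] [Field L]
    [NumberField L] [Algebra K L] {ι : Type*} [Finite ι] (a : ι → 𝓞 K) :
    mulHeight (fun i => algebraMap K L (a i : K)) =
      mulHeight (fun i => (a i : K)) ^ Module.finrank K L := by
  by_cases ha : a = 0
  · subst ha
    have h1 : (fun i : ι => algebraMap K L (((0 : ι → 𝓞 K) i : 𝓞 K) : K)) = 0 := by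
      funext i
      simp
    have h2 : (fun i : ι => (((0 : ι → 𝓞 K) i : 𝓞 K) : K)) = 0 := by
      funext i
      simp
    rw [h1, h2, mulHeight_zero, mulHeight_zero, one_pow]
  obtain ⟨i₀, hi₀⟩ := Function.ne_iff.1 ha
  have hK0 : (fun i => (a i : K)) ≠ 0 := by
    refine Function.ne_iff.2 ⟨i₀, ?_⟩
    simpa using hi₀
  have hL0 : (fun i => algebraMap K L (a i : K)) ≠ 0 := by
    refine Function.ne_iff.2 ⟨i₀, ?_⟩
    simpa using hi₀
  have ha' : (fun i => algebraMap (𝓞 K) (𝓞 L) (a i)) ≠ 0 := by
    refine Function.ne_iff.2 ⟨i₀, ?_⟩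
    intro h
    have h3 := congrArg (fun z : 𝓞 L => (z : L)) h
    simp only [coe_algebraMap_ringOfIntegers, Pi.zero_apply, map_zero] at h3
    exact hi₀ (by simpa using h3)
  have hfK := absNorm_mul_finprod_finitePlace_eq_one ha
  have hfL := absNorm_mul_finprod_finitePlace_eq_one ha'
  have hN : Ideal.absNorm (Ideal.span (Set.range fun i => algebraMap (𝓞 K) (𝓞 L) (a i))) =
      Ideal.absNorm (Ideal.span (Set.range a)) ^ Module.finrank K L := by
    rw [IsFractionRing.finrank_eq (𝓞 K) K (𝓞 L) L, ← Ideal.absNorm_algebraMap, Ideal.map_span,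
      ← Set.range_comp]
    rfl
  have hinf : ∏ w : InfinitePlace L, (⨆ i, w (algebraMap K L (a i : K))) ^ w.mult =
      (∏ v : InfinitePlace K, (⨆ i, v (a i : K)) ^ v.mult) ^ Module.finrank K L := by
    rw [prod_infinitePlace_pow_mult (fun w : InfinitePlace L => ⨆ i, w (algebraMap K L (a i : K))),
      prod_infinitePlace_pow_mult (fun v : InfinitePlace K => ⨆ i, v (a i : K)),
      ← prod_comp_algebraMap K L (fun ψ : K →+* ℂ => ⨆ i, InfinitePlace.mk ψ (a i : K))]
    rfl
  rw [NumberField.mulHeight_eq hK0, NumberField.mulHeight_eq hL0, hinf, mul_pow]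
  congr 1
  simp only [coe_algebraMap_ringOfIntegers] at hfL
  rw [hN] at hfL
  have hNK : ((Ideal.absNorm (Ideal.span (Set.range a)) : ℕ) : ℝ) ^ Module.finrank K L ≠ 0 := by
    intro h
    rw [Nat.cast_pow, h, zero_mul] at hfL
    exact zero_ne_one hfL
  apply mul_left_cancel₀ hNK
  rw [← mul_pow, hfK, one_pow, ← Nat.cast_pow]
  exact hfL

/-- **extension formula** for the multiplicative height of a tuple. -/
theorem mulHeight_algebraMap (K L : Type*) [Field K] [NumberField K] [Field L] [NumberField L]
    [Algebra K L] {ι : Type*} [Finite ι] (x : ι → K) :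
    Height.mulHeight (fun i => algebraMap K L (x i)) = Height.mulHeight x ^ Module.finrank K L := by
  obtain ⟨b, hb⟩ := IsLocalization.exist_integer_multiples_of_finite (nonZeroDivisors (𝓞 K)) x
  choose a ha using hb
  have hc : algebraMap (𝓞 K) K (b : 𝓞 K) ≠ 0 := by
    have := nonZeroDivisors.coe_ne_zero b
    simp
  have h1 : (fun i => (a i : K)) = algebraMap (𝓞 K) K (b : 𝓞 K) • x := by
    funext i
    rw [Pi.smul_apply, smul_eq_mul, ← Algebra.smul_def]
    exact ha i
  have h2 : (fun i => algebraMap K L (a i : K)) =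
      algebraMap K L (algebraMap (𝓞 K) K (b : 𝓞 K)) • fun i => algebraMap K L (x i) := by
    funext i
    rw [Pi.smul_apply, smul_eq_mul, ← map_mul]
    exact congrArg _ (congrFun h1 i)
  have h3 := mulHeight_algebraMap_of_integral K L a
  rw [h1, h2, mulHeight_smul_eq_mulHeight _ hc,
    mulHeight_smul_eq_mulHeight _ (by simp)] at h3
  exact h3

theorem logHeight_algebraMap (K L : Type*) [Field K] [NumberField K] [Field L] [NumberField L]
    [Algebra K L] {ι : Type*} [Finite ι] (x : ι → K) :
    Height.logHeight (fun i => algebraMap K L (x i)) = Module.finrank K L * Height.logHeight x := by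
  rw [Height.logHeight_eq_log_mulHeight, mulHeight_algebraMap, Real.log_pow,
    Height.logHeight_eq_log_mulHeight]

/-- heights are invariant under isomorphisms of number fields. -/
theorem mulHeight_ringEquiv {K L : Type*} [Field K] [NumberField K] [Field L] [NumberField L]
    (e : K ≃+* L) {ι : Type*} [Finite ι] (x : ι → K) :
    Height.mulHeight (fun i => e (x i)) = Height.mulHeight x := by
  let := e.toRingHom.toAlgebra
  have h1 : Module.finrank K L = 1 := by
    rw [← (AlgEquiv.ofRingEquiv (f := e) (fun _ => rfl)).toLinearEquiv.finrank_eq,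
      Module.finrank_self]
  have h2 := mulHeight_algebraMap K L x
  rw [h1, pow_one] at h2
  exact h2

end Fermat.Agent.S17.AH
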