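import Fermat.Agent.S17.AH.Basic

/-!
# S17 / AH 4 : Northcott's theorem in bounded degree
-/

set_option autoImplicit false

namespace Fermat.Agent.S17.AH

open Polynomial

/-- the polynomials `∏ᵢ (-1 or X)`. -/
noncomputable def expPoly (n : ℕ) (p : Fin n → Fin 2) : Polynomial Qb :=
  ∏ i, (![-1, X] : Fin 2 → Polynomial Qb) (p i)

theorem prod_X_sub_C_eq_sum_expPoly (n : ℕ) (r : Fin n → Qb) :
    ∏ i, (X - C (r i)) =
      ∑ p : Fin n → Fin 2, C (∏ i, (![r i, 1] : Fin 2 → Qb) (p i)) * expPoly n p := by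
  have h1 : ∀ i, (X - C (r i) : Polynomial Qb) =
      ∑ j : Fin 2, C ((![r i, 1] : Fin 2 → Qb) j) * (![-1, X] : Fin 2 → Polynomial Qb) j := by
    intro i
    rw [Fin.sum_univ_two]
    simp
    ring
  rw [Finset.prod_congr rfl fun i _ => h1 i, Finset.prod_univ_sum, Fintype.piFinset_univ]
  refine Finset.sum_congr rfl fun p _ => ?_
  rw [Finset.prod_mul_distrib, map_prod, expPoly]

theorem coeff_prod_X_sub_C_top (n : ℕ) (r : Fin n → Qb) :
    (∏ i, (X - C (r i))).coeff n = 1 := by
  have hm : (∏ i, (X - C (r i))).Monic := monic_prod_of_monic _ _ fun i _ => monic_X_sub_C (r i)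
  have hd : (∏ i, (X - C (r i))).natDegree = n := by
    rw [natDegree_prod_of_monic _ _ fun i _ => monic_X_sub_C (r i)]
    simp
  have := hm.coeff_natDegree
  rwa [hd] at this

theorem exists_coeff_height_le (n k : ℕ) : ∃ c : ℝ, ∀ r : Fin n → Qb,
    absLogHeight ![(∏ i, (X - C (r i))).coeff k, 1] ≤ ∑ i, absLogHeight ![r i, 1] + c := by
  obtain ⟨c, hc⟩ := exists_absLogHeight_linear_le (κ := Fin 2) (ι := Fin n → Fin 2)
    ![fun p => (expPoly n p).coeff k, fun p => (expPoly n p).coeff n]
  refine ⟨c, fun r => ?_⟩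
  have h := hc (fun p => ∏ i, (![r i, 1] : Fin 2 → Qb) (p i))
  rw [absLogHeight_pi_prod (fun i => (![r i, 1] : Fin 2 → Qb))
    (fun i hi => one_ne_zero (α := Qb) (by simpa using congrFun hi 1))] at h
  refine le_of_eq_of_le ?_ h
  congr 1
  have hcoef : ∀ m, (∏ i, (X - C (r i))).coeff m =
      ∑ p : Fin n → Fin 2, (expPoly n p).coeff m * ∏ i, (![r i, 1] : Fin 2 → Qb) (p i) := by
    intro m
    rw [prod_X_sub_C_eq_sum_expPoly, finsetSum_coeff]
    refine Finset.sum_congr rfl fun p _ => ?_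
    rw [coeff_C_mul, mul_comm]
  funext j
  fin_cases j
  · simpa using hcoef k
  · simpa [coeff_prod_X_sub_C_top] using hcoef n

theorem normal_Qb : Normal ℚ Qb :=
  have : Algebra.IsAlgebraic ℚ Qb := AlgebraicClosure.isAlgebraic ℚ
  have : IsAlgClosure ℚ Qb := ⟨inferInstance, inferInstance⟩
  IsAlgClosure.normal ℚ Qb

/-- the minimal polynomial is a product of `X - (conjugate)`; all conjugates have the same
height. -/
theorem exists_conj_tuple (a : Qb) : ∃ (n : ℕ) (r : Fin n → Qb),
    n = (minpoly ℚ a).natDegree ∧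
    (minpoly ℚ a).map (algebraMap ℚ Qb) = ∏ i, (X - C (r i)) ∧
    ∀ i, absLogHeight ![r i, 1] = absLogHeight ![a, 1] := by
  have hmon : ((minpoly ℚ a).map (algebraMap ℚ Qb)).Monic := (minpoly.monic (isIntegral_Qb a)).map _
  have h1 := (IsAlgClosed.splits ((minpoly ℚ a).map (algebraMap ℚ Qb))).eq_prod_roots_of_monic hmon
  set P := (minpoly ℚ a).map (algebraMap ℚ Qb) with hP
  set l := P.roots.toList with hl
  have hl' : (l : Multiset Qb) = P.roots := Multiset.coe_toList _
  have h2 : P = ∏ i : Fin l.length, (X - C l[i.1]) := by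
    rw [Fin.prod_univ_fun_getElem l (fun z => X - C z)]
    conv_lhs => rw [h1, ← hl']
    rfl
  refine ⟨l.length, fun i => l[i.1], ?_, h2, fun i => ?_⟩
  · have h3 : P.natDegree = l.length := by
      conv_lhs => rw [h2]
      rw [natDegree_prod_of_monic _ _ fun i _ => monic_X_sub_C _]
      simp
    rw [← h3, hP, natDegree_map]
  · have hmem : l[i.1] ∈ P.roots := Multiset.mem_toList.1 (List.getElem_mem _)
    have hroot : aeval l[i.1] (minpoly ℚ a) = 0 := by
      have := (mem_roots'.1 hmem).2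
      rwa [IsRoot.def, hP, eval_map_algebraMap] at this
    have := normal_Qb
    obtain ⟨σ, hσ⟩ := minpoly.exists_algEquiv_of_root' (isIntegral_Qb a).isAlgebraic hroot
    rw [← absLogHeight_algEquiv σ ![a, 1]]
    congr 1
    funext j
    fin_cases j
    · simpa using hσ.symm
    · simp

theorem finite_setOf_rat_height_le (B : ℝ) :
    {q : ℚ | absLogHeight ![algebraMap ℚ Qb q, 1] ≤ B}.Finite := by
  have : NumberField (⊥ : IntermediateField ℚ Qb) := numberField_of_finiteDimensional ⊥
  have hfin := NumberField.finite_setOfPred_logHeight₁_le (⊥ : IntermediateField ℚ Qb) B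
  refine Set.Finite.of_finite_image (f := algebraMap ℚ (⊥ : IntermediateField ℚ Qb))
    (hfin.subset ?_) (FaithfulSMul.algebraMap_injective _ _).injOn
  rintro _ ⟨q, hq, rfl⟩
  have h := absLogHeight_eq (⊥ : IntermediateField ℚ Qb)
    ![algebraMap ℚ (⊥ : IntermediateField ℚ Qb) q, 1]
  rw [IntermediateField.finrank_bot, Nat.cast_one, div_one, ← Height.logHeight₁_eq_logHeight] at h
  show Height.logHeight₁ _ ≤ B
  rw [← h]
  refine le_of_eq_of_le ?_ hq
  congr 1
  funext j
  fin_cases j
  · rfl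
  · rfl

/-- finitely many algebraic numbers of bounded degree and bounded height. -/
theorem finite_setOf_height_le (d : ℕ) (B : ℝ) :
    {a : Qb | (minpoly ℚ a).natDegree ≤ d ∧ absLogHeight ![a, 1] ≤ B}.Finite := by
  classical
  choose c hc using exists_coeff_height_le
  set B' : ℝ := d * max B 0 +
    ∑ n ∈ Finset.range (d + 1), ∑ k ∈ Finset.range (d + 1), |c n k| with hB'
  have hU := (finite_setOf_rat_height_le B').union (Set.finite_singleton (0 : ℚ))
  refine (Polynomial.bUnion_roots_finite (algebraMap ℚ Qb) d hU).subset ?_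
  rintro a ⟨hd, hB⟩
  simp only [Set.mem_iUnion]
  refine ⟨minpoly ℚ a, ⟨hd, fun k => ?_⟩, ?_⟩
  · by_cases hk : k ≤ d
    · left
      obtain ⟨n, r, hn, hP, hr⟩ := exists_conj_tuple a
      have h1 := hc n k r
      rw [← hP, coeff_map, Finset.sum_congr rfl fun i _ => hr i, Finset.sum_const,
        Finset.card_univ, Fintype.card_fin, nsmul_eq_mul] at h1
      refine h1.trans ?_
      have hnd : n ≤ d := hn ▸ hd
      have h2 : (n : ℝ) * absLogHeight ![a, 1] ≤ d * max B 0 :=
        mul_le_mul (by exact_mod_cast hnd) (hB.trans (le_max_left _ _))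
          (absLogHeight_nonneg _) (Nat.cast_nonneg _)
      have h3 : |c n k| ≤ ∑ k ∈ Finset.range (d + 1), |c n k| :=
        Finset.single_le_sum (f := fun k => |c n k|) (fun _ _ => abs_nonneg _)
          (Finset.mem_range.2 (Nat.lt_succ_of_le hk))
      have h4 : ∑ k ∈ Finset.range (d + 1), |c n k| ≤
          ∑ n ∈ Finset.range (d + 1), ∑ k ∈ Finset.range (d + 1), |c n k| :=
        Finset.single_le_sum (f := fun n => ∑ k ∈ Finset.range (d + 1), |c n k|)
          (fun _ _ => Finset.sum_nonneg fun _ _ => abs_nonneg _)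
          (Finset.mem_range.2 (Nat.lt_succ_of_le hnd))
      have h5 := le_abs_self (c n k)
      rw [hB']
      linarith
    · right
      exact coeff_eq_zero_of_natDegree_lt (lt_of_le_of_lt hd (not_le.1 hk))
  · rw [Finset.mem_coe, Multiset.mem_toFinset, mem_roots', IsRoot.def, eval_map_algebraMap]
    exact ⟨((minpoly.monic (isIntegral_Qb a)).map _).ne_zero, minpoly.aeval ℚ a⟩

/-- finitely many tuples with a coordinate equal to `1`, of bounded degree and bounded height. -/
theorem finite_setOf_tuple_height_le {ι : Type*} [Finite ι] (d : ℕ) (B : ℝ) :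
    {x : ι → Qb | (∃ i, x i = 1) ∧ (∀ i, (minpoly ℚ (x i)).natDegree ≤ d) ∧
      absLogHeight x ≤ B}.Finite := by
  refine (Set.Finite.pi fun _ : ι => finite_setOf_height_le d B).subset ?_
  rintro x ⟨⟨i₀, hi₀⟩, hd, hB⟩ i -
  refine ⟨hd i, le_trans (le_of_eq_of_le ?_ (absLogHeight_comp_le ![i, i₀] x)) hB⟩
  congr 1
  funext j
  fin_cases j
  · rfl
  · exact hi₀.symm

end Fermat.Agent.S17.AH
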