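import Fermat.Agent.S17.AH.Basic
import Fermat.Agent.S17.VT.Relation

/-!
# S17 / AH 3 : **(M3)** homogeneous integral relations bound heights

If `s a ^ N + A 1 (t) s a ^ (N-1) + ... + A N (t) = 0` with `A i` homogeneous of degree `i`, then for
every absolute value `|s a| ≤ C_v max_b |t b|` with
`C_v = N * #monomials * max (1, |coefficients|)` (archimedean), `C_v = max (1, |coefficients|)`
(non archimedean) : if `i` maximises `|A i (t)| |s| ^ (N - i)` then `|s| ^ i ≤ N |A i (t)|`.

NOTE (helper12): `mulHeight_le_of_hRel` needs the extra hypothesis `0 < c` (for `α` empty and `c = 0`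
the original statement was false: `1 ≤ 0 ^ totalWeight K * ...`).
-/

set_option autoImplicit false

namespace Fermat.Agent.S17.AH

open VT

namespace RelAux

section loc
variable {K : Type*} [Field K]

/-- archimedean local estimate -/
lemma abv_le_of_rel (v : AbsoluteValue K ℝ) {N : ℕ} (hN : 0 < N) (a : ℕ → K) (s : K) (B : ℝ)
    (hB : 0 ≤ B)
    (hrel : s ^ N + ∑ i ∈ Finset.range N, a (i + 1) * s ^ (N - (i + 1)) = 0)
    (ha : ∀ i < N, N * v (a (i + 1)) ≤ B ^ (i + 1)) : v s ≤ B := by
  by_contra hlt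
  rw [not_le] at hlt
  have hS : 0 < v s := lt_of_le_of_lt hB hlt
  have h1 : s ^ N = -∑ i ∈ Finset.range N, a (i + 1) * s ^ (N - (i + 1)) := by
    linear_combination hrel
  have h2 : v s ^ N ≤ ∑ i ∈ Finset.range N, v (a (i + 1)) * v s ^ (N - (i + 1)) := by
    rw [← map_pow, h1, v.map_neg]
    refine (v.sum_le _ _).trans (le_of_eq ?_)
    exact Finset.sum_congr rfl fun i _ => by rw [map_mul, map_pow]
  have h3 : (N : ℝ) * v s ^ N ≤ ∑ i ∈ Finset.range N, B ^ (i + 1) * v s ^ (N - (i + 1)) := by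
    calc (N : ℝ) * v s ^ N ≤ N * ∑ i ∈ Finset.range N, v (a (i + 1)) * v s ^ (N - (i + 1)) :=
          mul_le_mul_of_nonneg_left h2 (Nat.cast_nonneg _)
      _ = ∑ i ∈ Finset.range N, (N * v (a (i + 1))) * v s ^ (N - (i + 1)) := by
          rw [Finset.mul_sum]
          exact Finset.sum_congr rfl fun i _ => by ring
      _ ≤ _ := Finset.sum_le_sum fun i hi =>
          mul_le_mul_of_nonneg_right (ha i (Finset.mem_range.1 hi)) (pow_nonneg hS.le _)
  have h4 : ∑ i ∈ Finset.range N, B ^ (i + 1) * v s ^ (N - (i + 1))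
      < ∑ _i ∈ Finset.range N, v s ^ N := by
    refine Finset.sum_lt_sum_of_nonempty (Finset.nonempty_range_iff.2 hN.ne') fun i hi => ?_
    have hi' : i + 1 ≤ N := Finset.mem_range.1 hi
    calc B ^ (i + 1) * v s ^ (N - (i + 1)) < v s ^ (i + 1) * v s ^ (N - (i + 1)) :=
          mul_lt_mul_of_pos_right (pow_lt_pow_left₀ hlt hB (Nat.succ_ne_zero i)) (pow_pos hS _)
      _ = v s ^ N := by rw [← pow_add, Nat.add_sub_cancel' hi']
  rw [Finset.sum_const, Finset.card_range, nsmul_eq_mul] at h4
  exact absurd (h3.trans_lt h4) (lt_irrefl _)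

/-- non archimedean local estimate -/
lemma abv_le_of_rel_nonarch {v : AbsoluteValue K ℝ} (hv : IsNonarchimedean v) {N : ℕ} (hN : 0 < N)
    (a : ℕ → K) (s : K) (B : ℝ) (hB : 0 ≤ B)
    (hrel : s ^ N + ∑ i ∈ Finset.range N, a (i + 1) * s ^ (N - (i + 1)) = 0)
    (ha : ∀ i < N, v (a (i + 1)) ≤ B ^ (i + 1)) : v s ≤ B := by
  by_contra hlt
  rw [not_le] at hlt
  have hS : 0 < v s := lt_of_le_of_lt hB hlt
  have h1 : s ^ N = -∑ i ∈ Finset.range N, a (i + 1) * s ^ (N - (i + 1)) := by
    linear_combination hrel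
  obtain ⟨i, hi, h2⟩ := hv.finset_image_add_of_nonempty
    (fun i => a (i + 1) * s ^ (N - (i + 1))) (Finset.nonempty_range_iff.2 hN.ne')
  have hi' : i + 1 ≤ N := Finset.mem_range.1 hi
  have h3 : v s ^ N ≤ v (a (i + 1)) * v s ^ (N - (i + 1)) := by
    rw [← map_pow, h1, v.map_neg, ← map_pow, ← map_mul]
    exact h2
  have h4 : v (a (i + 1)) * v s ^ (N - (i + 1)) < v s ^ N := by
    calc v (a (i + 1)) * v s ^ (N - (i + 1)) ≤ B ^ (i + 1) * v s ^ (N - (i + 1)) :=
          mul_le_mul_of_nonneg_right (ha i (Finset.mem_range.1 hi)) (pow_nonneg hS.le _)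
      _ < v s ^ (i + 1) * v s ^ (N - (i + 1)) :=
          mul_lt_mul_of_pos_right (pow_lt_pow_left₀ hlt hB (Nat.succ_ne_zero i)) (pow_pos hS _)
      _ = v s ^ N := by rw [← pow_add, Nat.add_sub_cancel' hi']
  exact absurd (h3.trans_lt h4) (lt_irrefl _)

end loc

section glob
open Height Height.AdmissibleAbsValues Multiset

variable {K : Type*} [Field K] [Height.AdmissibleAbsValues K]
  {α β γ : Type*} [Finite α] [Finite β] [Finite γ]

lemma mulHeight_le_of_local (c : ℕ) (s : α → K) (w : γ → K) (t : β → K)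
    (hs : s ≠ 0) (hw : w ≠ 0) (ht : t ≠ 0)
    (harch : ∀ v : AbsoluteValue K ℝ,
      (⨆ a, v (s a)) ≤ c * (⨆ g, v (w g)) * ⨆ b, v (t b))
    (hnon : ∀ v : AbsoluteValue K ℝ, IsNonarchimedean v →
      (⨆ a, v (s a)) ≤ (⨆ g, v (w g)) * ⨆ b, v (t b)) :
    mulHeight s ≤ (c : ℝ) ^ totalWeight K * mulHeight w * mulHeight t := by
  rw [mulHeight_eq hs, mulHeight_eq hw, mulHeight_eq ht, mul_mul_mul_comm, ← mul_assoc,
    ← mul_assoc, mul_assoc (_ * _ * _)]
  gcongr
  · exact finprod_nonneg fun v ↦ Real.iSup_nonneg_of_nonnegHomClass v.val _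
  · refine mul_nonneg (mul_nonneg (by simp) ?_) ?_ <;>
      exact prod_map_nonneg fun v _ ↦ Real.iSup_nonneg_of_nonnegHomClass v _
  · rw [mul_assoc, ← prod_map_mul, ← prod_replicate, totalWeight, ← map_const', ← prod_map_mul]
    refine prod_map_le_prod_map₀ _ _ (fun v _ ↦ Real.iSup_nonneg_of_nonnegHomClass v _) fun v _ ↦ ?_
    rw [mul_comm (iSup _), ← mul_assoc]
    exact harch v
  · rw [← finprod_mul_distrib (by fun_prop (disch := assumption))
      (by fun_prop (disch := assumption))]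
    refine finprod_le_finprod (by fun_prop (disch := assumption))
      (fun v ↦ Real.iSup_nonneg_of_nonnegHomClass v.val _) (by fun_prop (disch := assumption))
      fun v ↦ ?_
    exact hnon v.val (isNonarchimedean _ v.prop)

end glob

end RelAux

open Height in
/-- place by place version, for any field with admissible absolute values; `w` is any vector which
contains `1` and all the coefficients of the relations. -/
theorem mulHeight_le_of_hRel {K : Type*} [Field K] [Height.AdmissibleAbsValues K]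
    {α β γ : Type*} [Finite α] [Finite β] [Finite γ] (R : α → HRel K β) (c : ℕ) (hc0 : 0 < c)
    (hc : ∀ a, ∀ i ≤ (R a).N, (R a).N * ((R a).A i).support.card ≤ c)
    (w : γ → K) (hw1 : ∃ g, w g = 1)
    (hw : ∀ a, ∀ i ≤ (R a).N, ∀ m, ∃ g, w g = ((R a).A i).coeff m)
    (s : α → K) (t : β → K) (h : ∀ a, (R a).Holds (s a) t) :
    Height.mulHeight s ≤ (c : ℝ) ^ Height.totalWeight K * Height.mulHeight w * Height.mulHeight t := by
  have hc1 : (1 : ℝ) ≤ c := by exact_mod_cast hc0
  have H₀ : 1 ≤ (c : ℝ) ^ totalWeight K * mulHeight w * mulHeight t := by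
    rw [show (1 : ℝ) = 1 * 1 * 1 by ring]
    gcongr
    · exact one_le_pow₀ hc1
    · exact one_le_mulHeight _
    · exact one_le_mulHeight _
  rcases eq_or_ne s 0 with rfl | hs
  · simpa using H₀
  obtain ⟨g₁, hg₁⟩ := hw1
  have hw0 : w ≠ 0 := fun h0 => by
    have := congrFun h0 g₁
    rw [hg₁] at this
    exact one_ne_zero this
  have hrel : ∀ a, s a ^ (R a).N + ∑ i ∈ Finset.range (R a).N,
      MvPolynomial.eval t ((R a).A (i + 1)) * s a ^ ((R a).N - (i + 1)) = 0 := by
    intro a
    have := h a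
    unfold HRel.Holds at this
    rw [Finset.sum_range_succ', (R a).A_zero, map_one, one_mul, Nat.sub_zero] at this
    rw [add_comm]
    exact this
  have ht : t ≠ 0 := by
    rintro rfl
    apply hs
    funext a
    have h0 : ∀ i, MvPolynomial.eval (0 : β → K) ((R a).A (i + 1)) = 0 := by
      intro i
      have := VT.RelAux.aeval_mul_of_isHomogeneous ((R a).homog (i + 1)) (0 : K) (0 : β → K)
      simpa using this
    have h1 := hrel a
    simp only [h0, zero_mul, Finset.sum_const_zero, add_zero] at h1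
    exact pow_eq_zero_iff (R a).N_pos.ne' |>.1 h1
  have hα : Nonempty α := (Function.ne_iff.mp hs).nonempty
  refine RelAux.mulHeight_le_of_local c s w t hs hw0 ht (fun v => ?_) (fun v hv => ?_)
  · refine ciSup_le fun a => ?_
    have hW1 : 1 ≤ ⨆ g, v (w g) := Finite.le_ciSup_of_le g₁ (by rw [hg₁, map_one])
    have hT0 : 0 ≤ ⨆ b, v (t b) := Real.iSup_nonneg_of_nonnegHomClass v _
    refine RelAux.abv_le_of_rel v (R a).N_pos (fun i => MvPolynomial.eval t ((R a).A i)) (s a) _
      (by positivity) (hrel a) fun i hi => ?_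
    have hi' : i + 1 ≤ (R a).N := hi
    have h1 := v.eval_mvPolynomial_le ((R a).homog (i + 1)) t
    have h2 : (AddMonoidAlgebra.coeff ((R a).A (i + 1))).sum (fun _ c => v c)
        ≤ ((R a).A (i + 1)).support.card * ⨆ g, v (w g) := by
      rw [MvPolynomial.sum_def, ← nsmul_eq_mul]
      refine Finset.sum_le_card_nsmul _ _ _ fun m _ => ?_
      obtain ⟨g, hg⟩ := hw a (i + 1) hi' m
      rw [← hg]
      exact Finite.le_ciSup (fun g => v (w g)) g
    have h3 : (((R a).N * ((R a).A (i + 1)).support.card : ℕ) : ℝ) ≤ c := by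
      exact_mod_cast hc a (i + 1) hi'
    push_cast at h3
    calc ((R a).N : ℝ) * v (MvPolynomial.eval t ((R a).A (i + 1)))
        ≤ (R a).N * ((((R a).A (i + 1)).support.card * ⨆ g, v (w g)) * (⨆ b, v (t b)) ^ (i + 1)) := by
          gcongr
          exact h1.trans (by gcongr)
      _ = ((R a).N * ((R a).A (i + 1)).support.card) * (⨆ g, v (w g)) * (⨆ b, v (t b)) ^ (i + 1) := by
          ring
      _ ≤ (c : ℝ) ^ (i + 1) * (⨆ g, v (w g)) ^ (i + 1) * (⨆ b, v (t b)) ^ (i + 1) := by
          gcongr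
          · exact h3.trans (le_self_pow₀ hc1 (Nat.succ_ne_zero i))
          · exact le_self_pow₀ hW1 (Nat.succ_ne_zero i)
      _ = _ := by rw [mul_pow, mul_pow]
  · refine ciSup_le fun a => ?_
    have hW1 : 1 ≤ ⨆ g, v (w g) := Finite.le_ciSup_of_le g₁ (by rw [hg₁, map_one])
    have hT0 : 0 ≤ ⨆ b, v (t b) := Real.iSup_nonneg_of_nonnegHomClass v _
    refine RelAux.abv_le_of_rel_nonarch hv (R a).N_pos
      (fun i => MvPolynomial.eval t ((R a).A i)) (s a) _ (by positivity) (hrel a) fun i hi => ?_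
    have hi' : i + 1 ≤ (R a).N := hi
    have h1 := hv.eval_mvPolynomial_le ((R a).homog (i + 1)) t
    have h2 : (⨆ m : ((R a).A (i + 1)).support, v (MvPolynomial.coeff m.1 ((R a).A (i + 1))))
        ≤ ⨆ g, v (w g) := by
      refine Real.iSup_le (fun m => ?_) (by positivity)
      obtain ⟨g, hg⟩ := hw a (i + 1) hi' m
      rw [← hg]
      exact Finite.le_ciSup (fun g => v (w g)) g
    calc v (MvPolynomial.eval t ((R a).A (i + 1)))
        ≤ (⨆ g, v (w g)) * (⨆ b, v (t b)) ^ (i + 1) := h1.trans (by gcongr)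
      _ ≤ (⨆ g, v (w g)) ^ (i + 1) * (⨆ b, v (t b)) ^ (i + 1) := by
          gcongr
          exact le_self_pow₀ hW1 (Nat.succ_ne_zero i)
      _ = _ := by rw [mul_pow]

lemma RelAux.exists_map_eq {β : Type*} (K : IntermediateField ℚ Qb) (p : MvPolynomial β Qb)
    (hp : ∀ m, MvPolynomial.coeff m p ∈ K) :
    ∃ p' : MvPolynomial β K, MvPolynomial.map (algebraMap K Qb) p' = p :=
  ⟨∑ m ∈ p.support, MvPolynomial.monomial m ⟨MvPolynomial.coeff m p, hp m⟩, by
    rw [map_sum]
    simp only [MvPolynomial.map_monomial]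
    exact p.support_sum_monomial_coeff⟩

lemma RelAux.real_aux {x y z c : ℝ} {d : ℕ} (hd : (0 : ℝ) < d) (hc : 0 < c) (hx : 0 < x)
    (hy : 0 < y) (hz : 0 < z) (h : x ≤ c ^ d * y * z) :
    Real.log x / d ≤ Real.log z / d + (Real.log c + Real.log y / d) := by
  have h2 := Real.log_le_log hx h
  rw [Real.log_mul (mul_ne_zero (pow_ne_zero _ hc.ne') hy.ne') hz.ne',
    Real.log_mul (pow_ne_zero _ hc.ne') hy.ne', Real.log_pow] at h2
  rw [div_le_iff₀ hd]
  have e : (Real.log z / d + (Real.log c + Real.log y / d)) * d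
      = d * Real.log c + Real.log y + Real.log z := by
    field_simp
    ring
  rw [e]
  exact h2

/-- **(M3)**. -/
theorem exists_absLogHeight_le_of_hRel {α β : Type*} [Finite α] [Finite β] (R : α → HRel Qb β) :
    ∃ C : ℝ, ∀ (s : α → Qb) (t : β → Qb), (∀ a, (R a).Holds (s a) t) →
      absLogHeight s ≤ absLogHeight t + C := by
  classical
  have := Fintype.ofFinite α
  set W₀ : Finset Qb := insert 1 (insert 0 (Finset.univ.biUnion fun a =>
    (Finset.range ((R a).N + 1)).biUnion fun i =>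
      ((R a).A i).support.image fun m => MvPolynomial.coeff m ((R a).A i))) with hW₀
  have hcoeff : ∀ a, ∀ i ≤ (R a).N, ∀ m, MvPolynomial.coeff m ((R a).A i) ∈ W₀ := by
    intro a i hi m
    by_cases h0 : MvPolynomial.coeff m ((R a).A i) = 0
    · rw [h0, hW₀]; simp
    · rw [hW₀]
      refine Finset.mem_insert_of_mem (Finset.mem_insert_of_mem ?_)
      refine Finset.mem_biUnion.2 ⟨a, Finset.mem_univ a, Finset.mem_biUnion.2
        ⟨i, Finset.mem_range.2 (Nat.lt_succ_of_le hi), Finset.mem_image.2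
          ⟨m, MvPolynomial.mem_support_iff.2 h0, rfl⟩⟩⟩
  have h1W : (1 : Qb) ∈ W₀ := by rw [hW₀]; simp
  set c : ℕ := 1 + ∑ a, ∑ i ∈ Finset.range ((R a).N + 1), (R a).N * ((R a).A i).support.card
    with hc
  have hcle : ∀ a, ∀ i ≤ (R a).N, (R a).N * ((R a).A i).support.card ≤ c := by
    intro a i hi
    have h1 : (R a).N * ((R a).A i).support.card
        ≤ ∑ i ∈ Finset.range ((R a).N + 1), (R a).N * ((R a).A i).support.card :=
      Finset.single_le_sum (f := fun i => (R a).N * ((R a).A i).support.card)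
        (fun _ _ => Nat.zero_le _) (Finset.mem_range.2 (Nat.lt_succ_of_le hi))
    have h2 : ∑ i ∈ Finset.range ((R a).N + 1), (R a).N * ((R a).A i).support.card
        ≤ ∑ a, ∑ i ∈ Finset.range ((R a).N + 1), (R a).N * ((R a).A i).support.card :=
      Finset.single_le_sum
        (f := fun a => ∑ i ∈ Finset.range ((R a).N + 1), (R a).N * ((R a).A i).support.card)
        (fun _ _ => Nat.zero_le _) (Finset.mem_univ a)
    omega
  have hc0 : 0 < c := by omega
  refine ⟨Real.log c + absLogHeight (fun g : W₀ => (g : Qb)), fun s t h => ?_⟩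
  obtain ⟨K, hK, hSK⟩ := exists_numberField (Set.range s ∪ Set.range t ∪ (W₀ : Set Qb))
    (((Set.finite_range s).union (Set.finite_range t)).union W₀.finite_toSet)
  have hKn : NumberField K := numberField_of_finiteDimensional K
  have hsK : ∀ a, s a ∈ K := fun a => hSK (Or.inl (Or.inl ⟨a, rfl⟩))
  have htK : ∀ b, t b ∈ K := fun b => hSK (Or.inl (Or.inr ⟨b, rfl⟩))
  have hwK : ∀ g : W₀, (g : Qb) ∈ K := fun g => hSK (Or.inr g.2)
  have hφ : Function.Injective (algebraMap K Qb) := (algebraMap K Qb).injective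
  have hex : ∀ a i, ∃ p' : MvPolynomial β K,
      (i ≤ (R a).N → MvPolynomial.map (algebraMap K Qb) p' = (R a).A i) ∧
      (¬ i ≤ (R a).N → p' = 0) := by
    intro a i
    by_cases hi : i ≤ (R a).N
    · obtain ⟨p', hp'⟩ := RelAux.exists_map_eq K ((R a).A i)
        fun m => hSK (Or.inr (hcoeff a i hi m))
      exact ⟨p', fun _ => hp', fun h => absurd hi h⟩
    · exact ⟨0, fun h => absurd h hi, fun _ => rfl⟩
  choose A' hA' hA'0 using hex
  let R' : α → HRel K β := fun a =>
    { N := (R a).N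
      N_pos := (R a).N_pos
      A := A' a
      A_zero := by
        apply MvPolynomial.map_injective _ hφ
        rw [hA' a 0 (Nat.zero_le _), (R a).A_zero, map_one]
      homog := by
        intro i
        by_cases hi : i ≤ (R a).N
        · exact MvPolynomial.IsHomogeneous.of_map hφ (by rw [hA' a i hi]; exact (R a).homog i)
        · rw [hA'0 a i hi]; exact MvPolynomial.isHomogeneous_zero _ _ _ }
  have hmain := mulHeight_le_of_hRel (K := K) R' c hc0
    (fun a i hi => by
      have : (A' a i).support = ((R a).A i).support := by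
        rw [← hA' a i hi, MvPolynomial.support_map_of_injective _ hφ]
      change (R a).N * (A' a i).support.card ≤ c
      rw [this]
      exact hcle a i hi)
    (fun g : W₀ => (⟨(g : Qb), hwK g⟩ : K)) ⟨⟨1, h1W⟩, rfl⟩
    (fun a i hi m => ⟨⟨_, hcoeff a i hi m⟩, by
      apply Subtype.ext
      change MvPolynomial.coeff m ((R a).A i) = algebraMap K Qb (MvPolynomial.coeff m (A' a i))
      rw [← MvPolynomial.coeff_map, hA' a i hi]⟩)
    (fun a => (⟨s a, hsK a⟩ : K)) (fun b => (⟨t b, htK b⟩ : K))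
    (fun a => by
      have h1 := h a
      unfold HRel.Holds at h1 ⊢
      apply hφ
      rw [map_zero, ← h1, map_sum]
      refine Finset.sum_congr rfl fun i hi => ?_
      have hi' : i ≤ (R a).N := Nat.lt_succ_iff.1 (Finset.mem_range.1 hi)
      rw [map_mul, map_pow]
      congr 1
      change algebraMap K Qb (MvPolynomial.eval _ (A' a i)) = MvPolynomial.eval t ((R a).A i)
      rw [MvPolynomial.map_eval, hA' a i hi']
      rfl)
  rw [absLogHeight_eq_of_mem K s hsK, absLogHeight_eq_of_mem K t htK,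
    absLogHeight_eq_of_mem K (fun g : W₀ => (g : Qb)) hwK]
  have hcpos : (0 : ℝ) < c := by exact_mod_cast hc0
  rw [NumberField.totalWeight_eq_finrank] at hmain
  exact RelAux.real_aux (finrank_cast_pos K) hcpos (Height.mulHeight_pos _)
    (Height.mulHeight_pos _) (Height.mulHeight_pos _) hmain

end Fermat.Agent.S17.AH
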